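/-
S18 [BRIDGE] (helper28), concrete half, file 1: the Prelude field `modularFunctionFieldBar N`
(`= laurentBaseChange ℚ̄ (modularFunctionFieldFull N)`) IS the field
`modularFunctionFieldFullC ℚ̄ N = ℚ̄(j(q^d) : d ∣ N)` used by the S28 machinery.
-/
import Mathlib
import Fermat.Prelude.Def_ModularCurve_ArithmeticGalois
import Fermat.Prelude.Def_ModularCurve_X0ModL
import Fermat.Prelude.Def_ModularCurve_JqCoeff
import Fermat.Prelude.Thm_ModularCurve_coeffMap_qExpand

set_option autoImplicit false

open ModularCurve IntermediateField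

noncomputable section

namespace Fermat.Agent.S18.Bridge28

/-- `j(q^d)` over `ℚ`, pushed to `ℚ̄`, is `j(q^d)` over `ℚ̄`. -/
theorem coeffEmb_qExpand_jq (d : ℕ) [NeZero d] :
    coeffEmb (AlgebraicClosure ℚ) (qExpand ℚ d jq) =
      qExpand (AlgebraicClosure ℚ) d (jqModC (AlgebraicClosure ℚ)) := by
  rw [coeffEmb, coeffMap_qExpand, ← jqModC_rat, coeffMap_jqModC]

theorem coeffEmb_jq : coeffEmb (AlgebraicClosure ℚ) jq = jqModC (AlgebraicClosure ℚ) := by
  rw [coeffEmb, ← jqModC_rat, coeffMap_jqModC]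

theorem coeffEmb_mem_fullC (N : ℕ) {x : LaurentSeries ℚ} (hx : x ∈ modularFunctionFieldFull N) :
    coeffEmb (AlgebraicClosure ℚ) x ∈ modularFunctionFieldFullC (AlgebraicClosure ℚ) N := by
  rw [modularFunctionFieldFull] at hx
  induction hx using IntermediateField.adjoin_induction with
  | mem y hy =>
    obtain ⟨d, hne, hd, rfl⟩ := hy
    rw [coeffEmb_qExpand_jq]
    exact jqModCd_mem_full _ N hd
  | algebraMap r =>
    have : coeffEmb (AlgebraicClosure ℚ) (algebraMap ℚ (LaurentSeries ℚ) r) =
        algebraMap (AlgebraicClosure ℚ) (LaurentSeries (AlgebraicClosure ℚ))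
          (algebraMap ℚ (AlgebraicClosure ℚ) r) := by
      rw [algebraMap_laurentSeries_eq_single, algebraMap_laurentSeries_eq_single, coeffEmb,
        coeffMap_single]
    rw [this]
    exact IntermediateField.algebraMap_mem _ _
  | add y z _ _ hy hz => rw [map_add]; exact add_mem hy hz
  | inv y _ hy => rw [map_inv₀]; exact inv_mem hy
  | mul y z _ _ hy hz => rw [map_mul]; exact mul_mem hy hz

/-- **FieldEq**: the Prelude function field of `X₀(N)` over `ℚ̄` is `ℚ̄(j(q^d) : d ∣ N)`. -/
theorem modularFunctionFieldBar_eq_fullC (N : ℕ) :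
    modularFunctionFieldBar N = modularFunctionFieldFullC (AlgebraicClosure ℚ) N := by
  apply le_antisymm
  · rw [modularFunctionFieldBar, laurentBaseChange, IntermediateField.adjoin_le_iff]
    rintro _ ⟨x, hx, rfl⟩
    exact coeffEmb_mem_fullC N hx
  · rw [modularFunctionFieldFullC, IntermediateField.adjoin_le_iff]
    rintro _ ⟨d, hne, hd, rfl⟩
    rw [← coeffEmb_qExpand_jq]
    exact coeffEmb_mem_laurentBaseChange _ (jqd_mem_full N hd)

theorem mem_modularFunctionFieldBar_iff (N : ℕ) (x : LaurentSeries (AlgebraicClosure ℚ)) :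
    x ∈ modularFunctionFieldBar N ↔ x ∈ modularFunctionFieldFullC (AlgebraicClosure ℚ) N := by
  rw [modularFunctionFieldBar_eq_fullC]

/-- `j` lies in `F_N`. -/
theorem jqModC_mem_bar (N : ℕ) :
    jqModC (AlgebraicClosure ℚ) ∈ modularFunctionFieldBar N := by
  rw [mem_modularFunctionFieldBar_iff]
  exact jqModC_mem_full _ N

/-- level compatibility `N ∣ M ⇒ F_N ≤ F_M` (over any field). -/
theorem fullC_mono (K : Type*) [Field K] {N M : ℕ} (h : N ∣ M) :
    modularFunctionFieldFullC K N ≤ modularFunctionFieldFullC K M := by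
  rw [modularFunctionFieldFullC, IntermediateField.adjoin_le_iff]
  rintro _ ⟨d, hne, hd, rfl⟩
  exact jqModCd_mem_full K M (hd.trans h)

theorem bar_mono {N M : ℕ} (h : N ∣ M) :
    modularFunctionFieldBar N ≤ modularFunctionFieldBar M := by
  rw [modularFunctionFieldBar_eq_fullC, modularFunctionFieldBar_eq_fullC]
  exact fullC_mono _ h

end Fermat.Agent.S18.Bridge28
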