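/-
S18 / [BRIDGE] (helper28), file 1: the localised Laurent ring `𝒪_A ⊆ L((q))` attached to an
arbitrary valuation subring `A` of a field `L`, and the reduction map `ρ : 𝒪_A → k((q))`,
`k = A / 𝔪_A`.  (Generalisation of `Fermat.Agent.S28.ORing` from `ℤ_(ℓ) ⊆ ℚ` to `A ⊆ L`.)

* `incl A : A((q)) →+* L((q))`, `red A : A((q)) →+* k((q))` (coefficientwise).
* `O A : Subring L((q))` = quotients `a / b`, `a b ∈ A((q))`, `red b ≠ 0`  (LEVEL-INDEPENDENT).
* `rho A : O A →+* k((q))`, `rho_eq`, `rho_incl`, unit criterion `inv_mem_O_of_rho_ne_zero`.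
* constants: `C_mem_O_iff : C c ∈ O A ↔ c ∈ A`, `rho_C`.
* integral series: `inclZ_mem_O`, `rho_inclZ` (series with `ℤ`-coefficients).
-/
import Mathlib
import Fermat.Prelude.Def_ModularCurve_LaurentCoeff
import Fermat.Prelude.Def_ModularCurve_X0ModL

set_option autoImplicit false

noncomputable section

namespace Fermat.Agent.S18.Bridge28

open ModularCurve HahnSeries

variable {L : Type*} [Field L] (A : ValuationSubring L)

/-- `A((q)) → L((q))` -/
def incl : LaurentSeries A →+* LaurentSeries L := coeffMap A.subtype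

/-- `A((q)) → k((q))`, `k = A/𝔪`. -/
def red : LaurentSeries A →+* LaurentSeries (IsLocalRing.ResidueField A) :=
  coeffMap (IsLocalRing.residue A)

theorem incl_coeff (a : LaurentSeries A) (n : ℤ) : (incl A a).coeff n = (a.coeff n : L) := rfl

theorem red_coeff (a : LaurentSeries A) (n : ℤ) :
    (red A a).coeff n = IsLocalRing.residue A (a.coeff n) := rfl

theorem incl_injective : Function.Injective (incl A) := by
  intro a b h
  ext n
  have := congrArg (fun x => x.coeff n) h
  simp only [incl_coeff] at this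
  exact this

theorem red_ne_zero_imp_ne_zero {b : LaurentSeries A} (hb : red A b ≠ 0) : b ≠ 0 := by
  rintro rfl
  exact hb (map_zero _)

theorem incl_ne_zero {b : LaurentSeries A} (hb : b ≠ 0) : incl A b ≠ 0 := by
  intro h
  exact hb (incl_injective A (by rw [h, map_zero]))

/-- `x` is a quotient `a / b` of series with coefficients in `A`, `b` nonzero mod `𝔪_A`. -/
def IsInO (x : LaurentSeries L) : Prop :=
  ∃ a b : LaurentSeries A, red A b ≠ 0 ∧ x * incl A b = incl A a

/-- The local ring `𝒪_A ⊆ L((q))`. -/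
def O : Subring (LaurentSeries L) where
  carrier := {x | IsInO A x}
  mul_mem' := by
    rintro x y ⟨a, b, hb, h⟩ ⟨c, d, hd, h'⟩
    refine ⟨a * c, b * d, ?_, ?_⟩
    · rw [map_mul]; exact mul_ne_zero hb hd
    · rw [map_mul, map_mul, ← h, ← h']; ring
  one_mem' := ⟨1, 1, by rw [map_one]; exact one_ne_zero, by simp⟩
  add_mem' := by
    rintro x y ⟨a, b, hb, h⟩ ⟨c, d, hd, h'⟩
    refine ⟨a * d + c * b, b * d, ?_, ?_⟩
    · rw [map_mul]; exact mul_ne_zero hb hd
    · rw [map_mul, map_add, map_mul, map_mul, ← h, ← h']; ring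
  zero_mem' := ⟨0, 1, by rw [map_one]; exact one_ne_zero, by simp⟩
  neg_mem' := by
    rintro x ⟨a, b, hb, h⟩
    exact ⟨-a, b, hb, by rw [map_neg, ← h]; ring⟩

theorem mem_O_iff (x : LaurentSeries L) : x ∈ O A ↔ IsInO A x := Iff.rfl

theorem incl_mem_O (a : LaurentSeries A) : incl A a ∈ O A :=
  ⟨a, 1, by rw [map_one]; exact one_ne_zero, by simp⟩

/-! ### The reduction map -/

/-- The reduction map as a function. -/
def rhoFun (x : O A) : LaurentSeries (IsLocalRing.ResidueField A) :=
  red A (x.2.choose) / red A (x.2.choose_spec.choose)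

theorem rhoFun_eq (x : O A) (a b : LaurentSeries A) (hb : red A b ≠ 0)
    (h : (x : LaurentSeries L) * incl A b = incl A a) : rhoFun A x = red A a / red A b := by
  obtain ⟨hb', h'⟩ := x.2.choose_spec.choose_spec
  set a' := x.2.choose
  set b' := x.2.choose_spec.choose
  have e : a' * b = a * b' := by
    apply incl_injective A
    rw [map_mul, map_mul, ← h, ← h']; ring
  unfold rhoFun
  rw [div_eq_div_iff hb' hb, ← map_mul, ← map_mul, e]

/-- The reduction map `ρ : 𝒪_A → k((q))`. -/
def rho : O A →+* LaurentSeries (IsLocalRing.ResidueField A) where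
  toFun := rhoFun A
  map_one' := by
    rw [rhoFun_eq A 1 1 1 (by rw [map_one]; exact one_ne_zero) (by simp), map_one, div_one]
  map_mul' := by
    intro x y
    obtain ⟨a, b, hb, h⟩ := x.2
    obtain ⟨c, d, hd, h'⟩ := y.2
    rw [rhoFun_eq A x a b hb h, rhoFun_eq A y c d hd h',
      rhoFun_eq A (x * y) (a * c) (b * d)
        (by rw [map_mul]; exact mul_ne_zero hb hd)
        (by simp only [Subring.coe_mul, map_mul]; rw [← h, ← h']; ring),
      map_mul, map_mul, div_mul_div_comm]
  map_zero' := by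
    rw [rhoFun_eq A 0 0 1 (by rw [map_one]; exact one_ne_zero) (by simp), map_zero, zero_div]
  map_add' := by
    intro x y
    obtain ⟨a, b, hb, h⟩ := x.2
    obtain ⟨c, d, hd, h'⟩ := y.2
    rw [rhoFun_eq A x a b hb h, rhoFun_eq A y c d hd h',
      rhoFun_eq A (x + y) (a * d + c * b) (b * d)
        (by rw [map_mul]; exact mul_ne_zero hb hd)
        (by simp only [Subring.coe_add, map_mul, map_add]; rw [← h, ← h']; ring),
      map_mul, map_add, map_mul, map_mul, div_add_div _ _ hb hd, mul_comm (red A b) (red A c)]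

theorem rho_eq (x : O A) (a b : LaurentSeries A) (hb : red A b ≠ 0)
    (h : (x : LaurentSeries L) * incl A b = incl A a) : rho A x = red A a / red A b :=
  rhoFun_eq A x a b hb h

theorem rho_incl (a : LaurentSeries A) : rho A ⟨incl A a, incl_mem_O A a⟩ = red A a := by
  rw [rho_eq A _ a 1 (by rw [map_one]; exact one_ne_zero) (by simp), map_one, div_one]

/-- If `x = a / b` with both `a` and `b` nonzero mod `𝔪` then `x⁻¹ ∈ 𝒪`. -/
theorem inv_mem_O_of_red_ne_zero {x : LaurentSeries L} (a b : LaurentSeries A)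
    (ha : red A a ≠ 0) (hb : red A b ≠ 0) (h : x * incl A b = incl A a) : x⁻¹ ∈ O A := by
  refine ⟨b, a, ha, ?_⟩
  have hb0 : incl A b ≠ 0 := incl_ne_zero A (red_ne_zero_imp_ne_zero A hb)
  have ha0 : incl A a ≠ 0 := incl_ne_zero A (red_ne_zero_imp_ne_zero A ha)
  have hx : x ≠ 0 := by
    rintro rfl
    rw [zero_mul] at h
    exact ha0 h.symm
  rw [← h]
  field_simp

/-- Unit criterion: `u ∈ 𝒪` with `ρ u ≠ 0` has `u⁻¹ ∈ 𝒪`. -/
theorem inv_mem_O_of_rho_ne_zero (u : O A) (hu : rho A u ≠ 0) :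
    (u : LaurentSeries L)⁻¹ ∈ O A := by
  obtain ⟨a, b, hb, h⟩ := u.2
  rw [rho_eq A u a b hb h] at hu
  have ha : red A a ≠ 0 := fun h0 => hu (by rw [h0, zero_div])
  exact inv_mem_O_of_red_ne_zero A a b ha hb h

/-- Conversely, if `u` and `u⁻¹` are in `𝒪` then `ρ u ≠ 0` (for `u ≠ 0`). -/
theorem rho_ne_zero_of_inv_mem (u : O A) (hu0 : (u : LaurentSeries L) ≠ 0)
    (hu : (u : LaurentSeries L)⁻¹ ∈ O A) : rho A u ≠ 0 := by
  intro h
  have h1 : u * ⟨_, hu⟩ = 1 := Subtype.ext (by simp [mul_inv_cancel₀ hu0])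
  have := congrArg (rho A) h1
  rw [map_mul, h, zero_mul, map_one] at this
  exact zero_ne_one this

/-! ### Constants -/

theorem incl_C (c : A) : incl A (HahnSeries.C c) = HahnSeries.C (c : L) := by
  show coeffMap A.subtype (HahnSeries.C c) = _
  rw [HahnSeries.C_apply, coeffMap_single]
  rfl

theorem red_C (c : A) : red A (HahnSeries.C c) = HahnSeries.C (IsLocalRing.residue A c) := by
  show coeffMap (IsLocalRing.residue A) (HahnSeries.C c) = _
  rw [HahnSeries.C_apply, coeffMap_single]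
  rfl

theorem C_mem_O {c : L} (hc : c ∈ A) : (HahnSeries.C c : LaurentSeries L) ∈ O A := by
  have := incl_mem_O A (HahnSeries.C (⟨c, hc⟩ : A))
  rwa [incl_C] at this

theorem rho_C {c : L} (hc : c ∈ A) :
    rho A ⟨HahnSeries.C c, C_mem_O A hc⟩ = HahnSeries.C (IsLocalRing.residue A ⟨c, hc⟩) := by
  have h := rho_incl A (HahnSeries.C (⟨c, hc⟩ : A))
  rw [red_C] at h
  rw [← h]
  exact congrArg (rho A) (Subtype.ext (incl_C A ⟨c, hc⟩).symm)

theorem incl_smul (r : A) (a : LaurentSeries A) :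
    incl A (r • a) = HahnSeries.C (r : L) * incl A a := by
  ext n
  rw [HahnSeries.C_mul_eq_smul, HahnSeries.coeff_smul, incl_coeff, HahnSeries.coeff_smul,
    incl_coeff]
  rfl

theorem red_smul (r : A) (a : LaurentSeries A) :
    red A (r • a) = HahnSeries.C (IsLocalRing.residue A r) * red A a := by
  ext n
  rw [HahnSeries.C_mul_eq_smul, HahnSeries.coeff_smul, red_coeff, HahnSeries.coeff_smul,
    red_coeff, smul_eq_mul, smul_eq_mul, map_mul]

/-- A constant lies in `𝒪_A` iff it lies in `A`. -/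
theorem C_mem_O_iff (c : L) : (HahnSeries.C c : LaurentSeries L) ∈ O A ↔ c ∈ A := by
  refine ⟨fun h => ?_, C_mem_O A⟩
  by_contra hc
  have hc0 : c ≠ 0 := fun h0 => hc (h0 ▸ A.zero_mem)
  have hinv : c⁻¹ ∈ A := (A.mem_or_inv_mem c).resolve_left hc
  have hnon : (⟨c⁻¹, hinv⟩ : A) ∈ IsLocalRing.maximalIdeal A := by
    rw [A.valuation_lt_one_iff]
    show A.valuation c⁻¹ < 1
    have h1 : ¬ A.valuation c ≤ 1 := fun hle => hc ((A.valuation_le_one_iff c).mp hle)
    rw [map_inv₀]
    exact inv_lt_one_of_one_lt₀ (not_le.mp h1)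
  obtain ⟨a, b, hb, h⟩ := h
  -- `incl b = C c⁻¹ * incl a = incl (c⁻¹ • a)`
  have hb' : incl A b = incl A ((⟨c⁻¹, hinv⟩ : A) • a) := by
    rw [incl_smul, ← h, ← mul_assoc, ← map_mul]
    show incl A b = HahnSeries.C (c⁻¹ * c) * incl A b
    rw [inv_mul_cancel₀ hc0, map_one, one_mul]
  have hbb : b = (⟨c⁻¹, hinv⟩ : A) • a := incl_injective A hb'
  apply hb
  rw [hbb, red_smul, (IsLocalRing.residue_eq_zero_iff _).mpr hnon, map_zero, zero_mul]

/-! ### Series with integer coefficients -/

/-- `ℤ((q)) → A((q))` -/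
def liftZ : LaurentSeries ℤ →+* LaurentSeries A := coeffMap (Int.castRingHom A)

theorem incl_liftZ (s : LaurentSeries ℤ) :
    incl A (liftZ A s) = coeffMap (Int.castRingHom L) s := by
  show coeffMap A.subtype (coeffMap (Int.castRingHom A) s) = _
  refine (coeffMap_coeffMap _ _ _).trans ?_
  exact coeffMap_congr (RingHom.ext_int _ _) s

theorem red_liftZ (s : LaurentSeries ℤ) :
    red A (liftZ A s) = coeffMap (Int.castRingHom (IsLocalRing.ResidueField A)) s := by
  show coeffMap (IsLocalRing.residue A) (coeffMap (Int.castRingHom A) s) = _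
  refine (coeffMap_coeffMap _ _ _).trans ?_
  exact coeffMap_congr (RingHom.ext_int _ _) s

theorem inclZ_mem_O (s : LaurentSeries ℤ) : coeffMap (Int.castRingHom L) s ∈ O A := by
  rw [← incl_liftZ A]
  exact incl_mem_O A _

theorem rho_inclZ (s : LaurentSeries ℤ) :
    rho A ⟨coeffMap (Int.castRingHom L) s, inclZ_mem_O A s⟩ =
      coeffMap (Int.castRingHom (IsLocalRing.ResidueField A)) s := by
  rw [← red_liftZ A, ← rho_incl A (liftZ A s)]
  exact congrArg (rho A) (Subtype.ext (incl_liftZ A s).symm)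

end Fermat.Agent.S18.Bridge28
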