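/-
S18 [BRIDGE] (helper28), concrete half, file 2: the FRAME.
For a valuation subring `A` of an algebraically closed field `L : Type` with residue field `k`
and `(M : k) ≠ 0` there are `ψ(M)` integral monomials `x_i ∈ ℤ((q))` in the `j(q^d)`, `d ∣ M`,
whose reductions `x̄_i ∈ k((q))` are linearly independent over `k(j̄)`
(S28 `keyLower_algClosed` over `k`, which is algebraically closed by `ValRing25`).
-/
import Mathlib
import Fermat.Agent.S28.KeyLowerMain
import Fermat.Agent.S28.KeyGlue
import Fermat.Agent.S28.ModEq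
import Fermat.Agent.S18.ValRing25
import Fermat.Agent.S18.Bridge28.ORingA
import Fermat.Agent.S18.Bridge28.FieldEq

set_option autoImplicit false

open ModularCurve IntermediateField

noncomputable section

namespace Fermat.Agent.S18.Bridge28

open Fermat.Agent.S28 Fermat.Agent.S28.KeyGlue

/-- **Frame, general residue field.**  Over ANY algebraically closed field `k : Type` with
`(M : k) ≠ 0` there are `ψ(M)` integral monomials in the `j(q^d)`, `d ∣ M`, whose images in
`k((q))` are `k(j)`-linearly independent. -/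
theorem exists_frame_algClosed (k : Type) [Field k] [IsAlgClosed k] (M : ℕ) [NeZero M]
    (hM : (M : k) ≠ 0) :
    ∃ x : Fin (dedekindPsi M) → LaurentSeries ℤ, (∀ i, x i ∈ monomialsZ M) ∧
      LinearIndependent ↥(k⟮jqModC k⟯) (fun i => coeffMap (Int.castRingHom k) (x i)) := by
  have hL := KeyLower.keyLower_algClosed modEqStatement k M hM
  rw [show fieldT k = k⟮jqModC k⟯ from rfl,
    relrank_eq_rank_of_le (adjoin_jqModC_le_full k M)] at hL
  obtain ⟨f, hf, hlin⟩ := exists_linearIndependent_monomials_of_le_rank (k⟮jqModC k⟯)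
    (divisorExpansionsC k M) (adjoin_jqModC_le_full k M) (dedekindPsi M) hL
  choose x hx hxf using fun i => exists_monomialsZ_of_mem_closure k (hf i)
  refine ⟨x, hx, ?_⟩
  have hfun : (fun i => coeffMap (Int.castRingHom k) (x i)) = f := funext hxf
  rw [hfun]
  exact hlin

/-- integral monomials land in `F_M(K)` over every field `K`. -/
theorem coeffMap_mem_fullC_of_mem_monomialsZ (K : Type*) [Field K] {M : ℕ}
    {y : LaurentSeries ℤ} (hy : y ∈ monomialsZ M) :
    coeffMap (Int.castRingHom K) y ∈ modularFunctionFieldFullC K M := by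
  induction hy using Submonoid.closure_induction with
  | mem y hy => exact subset_adjoin K _ (coeffMap_mem_divisorExpansionsC K hy)
  | one => rw [map_one]; exact one_mem _
  | mul x y _ _ hx hy => rw [map_mul]; exact mul_mem hx hy

/-- integral monomials land in the Prelude field `modularFunctionFieldBar M`. -/
theorem coeffMap_mem_bar_of_mem_monomialsZ {M : ℕ} {y : LaurentSeries ℤ}
    (hy : y ∈ monomialsZ M) :
    coeffMap (Int.castRingHom (AlgebraicClosure ℚ)) y ∈ modularFunctionFieldBar M := by
  rw [mem_modularFunctionFieldBar_iff]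
  exact coeffMap_mem_fullC_of_mem_monomialsZ _ hy

section ValSub

variable {L : Type} [Field L] [IsAlgClosed L] (A : ValuationSubring L)

/-- **Frame over the residue field of a valuation subring of an algebraically closed field.** -/
theorem exists_frame (M : ℕ) [NeZero M] (hM : (M : IsLocalRing.ResidueField A) ≠ 0) :
    ∃ x : Fin (dedekindPsi M) → LaurentSeries ℤ, (∀ i, x i ∈ monomialsZ M) ∧
      LinearIndependent ↥((IsLocalRing.ResidueField A)⟮jqModC (IsLocalRing.ResidueField A)⟯)
        (fun i => coeffMap (Int.castRingHom (IsLocalRing.ResidueField A)) (x i)) := by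
  haveI : IsAlgClosed (IsLocalRing.ResidueField A) := ValRing25.residueField_isAlgClosed A
  exact exists_frame_algClosed _ M hM

end ValSub

/-- For `A` over `ℓ` and `ℓ ∤ M`, `M` is nonzero in the residue field. -/
theorem natCast_residueField_ne_zero (A : ValuationSubring (AlgebraicClosure ℚ)) {ℓ : ℕ}
    [Fact ℓ.Prime] (hA : A.LiesOverPrime ℓ) {M : ℕ} (hM : ¬ ℓ ∣ M) :
    (M : IsLocalRing.ResidueField A) ≠ 0 := by
  haveI := ValRing25.residueField_charP A hA
  intro h
  exact hM ((CharP.cast_eq_zero_iff (IsLocalRing.ResidueField A) ℓ M).mp h)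

/-- **Frame at `A | ℓ`, `ℓ ∤ M`.** -/
theorem exists_frame_of_liesOver (A : ValuationSubring (AlgebraicClosure ℚ)) {ℓ : ℕ}
    [Fact ℓ.Prime] (hA : A.LiesOverPrime ℓ) (M : ℕ) [NeZero M] (hM : ¬ ℓ ∣ M) :
    ∃ x : Fin (dedekindPsi M) → LaurentSeries ℤ, (∀ i, x i ∈ monomialsZ M) ∧
      (∀ i, coeffMap (Int.castRingHom (AlgebraicClosure ℚ)) (x i) ∈ modularFunctionFieldBar M) ∧
      (∀ i, coeffMap (Int.castRingHom (IsLocalRing.ResidueField A)) (x i) ∈
        modularFunctionFieldFullC (IsLocalRing.ResidueField A) M) ∧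
      LinearIndependent ↥((IsLocalRing.ResidueField A)⟮jqModC (IsLocalRing.ResidueField A)⟯)
        (fun i => coeffMap (Int.castRingHom (IsLocalRing.ResidueField A)) (x i)) := by
  obtain ⟨x, hx, hlin⟩ := exists_frame A M (natCast_residueField_ne_zero A hA hM)
  exact ⟨x, hx, fun i => coeffMap_mem_bar_of_mem_monomialsZ (hx i),
    fun i => coeffMap_mem_fullC_of_mem_monomialsZ _ (hx i), hlin⟩

end Fermat.Agent.S18.Bridge28
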