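/-
S18 [BRIDGE] (helper28), file 4: FROM THE STRUCTURE THEOREM TO THE VALUATION SUBRING.

Abstract setting: `A` a valuation subring of a field `L`, `k` its residue field, `F ⊆ L((q))` and
`Fb ⊆ k((q))` intermediate fields.  `IsGaussPair A F Fb` records the three outputs of the
STRUCTURE theorem:
* `scale`   : every `0 ≠ y ∈ F` is `C c * u`, `c ≠ 0`, `u ∈ 𝒪_A ∩ F`, `ρ u ≠ 0`;
* `rho_mem` : `ρ (𝒪_A ∩ F) ⊆ Fb`;
* `surj`    : `ρ : 𝒪_A ∩ F → Fb` is onto.
From them: the valuation subring `OW` of `F` (carrier `𝒪_A ∩ F`), the reduction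
`redOW : OW →+* Fb` (surjective, kernel = nonunits), `OW ∩ L = A`, compatibility with the
residue map of `A`, and the value group statement (`∀ y ≠ 0, ∃ c ≠ 0, w y = w c`), both in
`ValuationSubring` form (for `GaussOrtho71`) and in `Valuation.integer` form (for
`KGauss73.GaussData`, `GaussCoord89`).
-/
import Mathlib
import Fermat.Agent.S18.GaussOrtho71
import Fermat.Agent.S18.Bridge28.ORingA

set_option autoImplicit false

noncomputable section

namespace Fermat.Agent.S18.Bridge28

open ModularCurve HahnSeries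

variable {L : Type*} [Field L] (A : ValuationSubring L)

/-- The outputs of the STRUCTURE theorem for a pair of fields `F ⊆ L((q))`, `Fb ⊆ k((q))`. -/
structure IsGaussPair (F : IntermediateField L (LaurentSeries L))
    (Fb : IntermediateField (IsLocalRing.ResidueField A)
      (LaurentSeries (IsLocalRing.ResidueField A))) : Prop where
  scale : ∀ y : LaurentSeries L, y ∈ F → y ≠ 0 → ∃ c : L, c ≠ 0 ∧
    ∃ (u : LaurentSeries L) (hu : u ∈ O A), u ∈ F ∧ rho A ⟨u, hu⟩ ≠ 0 ∧ y = HahnSeries.C c * u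
  rho_mem : ∀ (u : LaurentSeries L) (hu : u ∈ O A), u ∈ F → rho A ⟨u, hu⟩ ∈ Fb
  surj : ∀ z : LaurentSeries (IsLocalRing.ResidueField A), z ∈ Fb →
    ∃ (u : LaurentSeries L) (hu : u ∈ O A), u ∈ F ∧ rho A ⟨u, hu⟩ = z

variable {A}
variable {F : IntermediateField L (LaurentSeries L)}
  {Fb : IntermediateField (IsLocalRing.ResidueField A)
    (LaurentSeries (IsLocalRing.ResidueField A))}

theorem algebraMap_eq_C (c : L) : algebraMap L (LaurentSeries L) c = HahnSeries.C c := by
  rw [algebraMap_laurentSeries_eq_single]; rfl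

theorem coe_algebraMap_F (c : L) :
    ((algebraMap L F c : F) : LaurentSeries L) = HahnSeries.C c := by
  rw [← algebraMap_eq_C]; rfl

namespace IsGaussPair

variable (h : IsGaussPair A F Fb)
include h

/-- **The Gauss valuation subring of `F`**: `𝒪_A ∩ F`. -/
def OW : ValuationSubring F where
  carrier := {y | (y : LaurentSeries L) ∈ O A}
  mul_mem' := fun {a b} ha hb => (O A).mul_mem ha hb
  one_mem' := (O A).one_mem
  add_mem' := fun {a b} ha hb => (O A).add_mem ha hb
  zero_mem' := (O A).zero_mem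
  neg_mem' := fun {a} ha => (O A).neg_mem ha
  mem_or_inv_mem' := by
    intro y
    by_cases hy : y = 0
    · left; rw [hy]; exact (O A).zero_mem
    have hy' : (y : LaurentSeries L) ≠ 0 := fun h0 => hy (Subtype.ext h0)
    obtain ⟨c, hc, u, hu, huF, hρ, hyu⟩ := h.scale y y.2 hy'
    rcases A.mem_or_inv_mem c with hcA | hcA
    · left
      show (y : LaurentSeries L) ∈ O A
      rw [hyu]
      exact (O A).mul_mem (C_mem_O A hcA) hu
    · right
      show ((y⁻¹ : F) : LaurentSeries L) ∈ O A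
      have hinv : (u : LaurentSeries L)⁻¹ ∈ O A := inv_mem_O_of_rho_ne_zero A ⟨u, hu⟩ hρ
      have : ((y⁻¹ : F) : LaurentSeries L) = HahnSeries.C c⁻¹ * u⁻¹ := by
        push_cast
        rw [hyu, mul_inv, map_inv₀]
      rw [this]
      exact (O A).mul_mem (C_mem_O A hcA) hinv

theorem mem_OW_iff (y : F) : y ∈ h.OW ↔ (y : LaurentSeries L) ∈ O A := Iff.rfl

/-- `OW → 𝒪_A`. -/
def toO : h.OW →+* O A where
  toFun y := ⟨((y : F) : LaurentSeries L), y.2⟩
  map_one' := rfl
  map_mul' _ _ := rfl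
  map_zero' := rfl
  map_add' _ _ := rfl

theorem toO_coe (y : h.OW) : ((h.toO y : O A) : LaurentSeries L) = ((y : F) : LaurentSeries L) :=
  rfl

/-- **The reduction map** `OW → Fb`. -/
def redOW : h.OW →+* Fb :=
  ((rho A).comp h.toO).codRestrict Fb (fun y => h.rho_mem _ _ (y : F).2)

theorem redOW_coe (y : h.OW) :
    ((h.redOW y : Fb) : LaurentSeries (IsLocalRing.ResidueField A)) = rho A (h.toO y) := rfl

theorem redOW_coe' (y : F) (hy : y ∈ h.OW) :
    ((h.redOW ⟨y, hy⟩ : Fb) : LaurentSeries (IsLocalRing.ResidueField A)) =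
      rho A ⟨(y : LaurentSeries L), hy⟩ := rfl

/-- `ρ y ≠ 0` iff `y` is a unit of `OW`. -/
theorem redOW_ne_zero_iff (y : h.OW) : h.redOW y ≠ 0 ↔ (y : F) ∉ h.OW.nonunits := by
  rw [GaussOrtho71.mem_nonunits_iff_inv]
  constructor
  · intro hne
    have hne' : rho A (h.toO y) ≠ 0 := fun h0 => hne (Subtype.ext (by rw [redOW_coe, h0]; rfl))
    have hinv := inv_mem_O_of_rho_ne_zero A (h.toO y) hne'
    rw [not_or, not_not]
    refine ⟨?_, ?_⟩
    · intro h0
      apply hne'
      have : h.toO y = 0 := Subtype.ext (by rw [toO_coe, h0]; rfl)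
      rw [this, map_zero]
    · show (((y : F)⁻¹ : F) : LaurentSeries L) ∈ O A
      push_cast
      exact hinv
  · intro hu
    rw [not_or, not_not] at hu
    obtain ⟨hy0, hinv⟩ := hu
    have hy0' : ((h.toO y : O A) : LaurentSeries L) ≠ 0 := by
      rw [toO_coe]
      intro h0
      exact hy0 (Subtype.ext h0)
    have hinv' : ((h.toO y : O A) : LaurentSeries L)⁻¹ ∈ O A := by
      have : (((y : F)⁻¹ : F) : LaurentSeries L) ∈ O A := hinv
      push_cast at this
      exact this
    have := rho_ne_zero_of_inv_mem A (h.toO y) hy0' hinv'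
    intro h0
    apply this
    rw [← redOW_coe, h0]
    rfl

theorem redOW_eq_zero_iff (y : h.OW) : h.redOW y = 0 ↔ (y : F) ∈ h.OW.nonunits := by
  rw [← not_iff_not]
  exact h.redOW_ne_zero_iff y

theorem redOW_eq_zero_iff_valuation_lt (y : h.OW) :
    h.redOW y = 0 ↔ h.OW.valuation (y : F) < 1 := by
  rw [h.redOW_eq_zero_iff, ValuationSubring.mem_nonunits_iff]

theorem redOW_surjective : Function.Surjective h.redOW := by
  intro z
  obtain ⟨u, hu, huF, hz⟩ := h.surj z z.2
  refine ⟨⟨⟨u, huF⟩, hu⟩, Subtype.ext ?_⟩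
  rw [redOW_coe]
  exact hz

/-! ### Constants -/

theorem algebraMap_mem_OW_iff (c : L) : algebraMap L F c ∈ h.OW ↔ c ∈ A := by
  rw [mem_OW_iff, coe_algebraMap_F, C_mem_O_iff]

/-- `OW ∩ L = A`. -/
theorem baseRing_eq : GaussOrtho71.baseRing L h.OW = A := by
  ext c
  rw [GaussOrtho71.mem_baseRing_iff, h.algebraMap_mem_OW_iff]

theorem redOW_algebraMap (c : L) (hc : c ∈ A) :
    h.redOW ⟨algebraMap L F c, (h.algebraMap_mem_OW_iff c).mpr hc⟩ =
      algebraMap (IsLocalRing.ResidueField A) Fb (IsLocalRing.residue A ⟨c, hc⟩) := by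
  apply Subtype.ext
  rw [redOW_coe]
  have h1 : h.toO ⟨algebraMap L F c, (h.algebraMap_mem_OW_iff c).mpr hc⟩ =
      ⟨HahnSeries.C c, C_mem_O A hc⟩ := Subtype.ext (by rw [toO_coe]; exact coe_algebraMap_F c)
  rw [h1, rho_C A hc]
  have h2 : ((algebraMap (IsLocalRing.ResidueField A) Fb (IsLocalRing.residue A ⟨c, hc⟩) : Fb) :
      LaurentSeries (IsLocalRing.ResidueField A)) =
      algebraMap (IsLocalRing.ResidueField A) (LaurentSeries (IsLocalRing.ResidueField A))
        (IsLocalRing.residue A ⟨c, hc⟩) := rfl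
  rw [h2, algebraMap_eq_C]

/-- the residue map of `A`, on `OW ∩ L` -/
def resBase : GaussOrtho71.baseRing L h.OW →+* IsLocalRing.ResidueField A where
  toFun c := IsLocalRing.residue A ⟨(c : L), (h.algebraMap_mem_OW_iff c).mp c.2⟩
  map_one' := by
    have : (⟨((1 : GaussOrtho71.baseRing L h.OW) : L),
      (h.algebraMap_mem_OW_iff _).mp (1 : GaussOrtho71.baseRing L h.OW).2⟩ : A) = 1 := rfl
    rw [this, map_one]
  map_mul' a b := by
    rw [← map_mul]; rfl
  map_zero' := by
    have : (⟨((0 : GaussOrtho71.baseRing L h.OW) : L),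
      (h.algebraMap_mem_OW_iff _).mp (0 : GaussOrtho71.baseRing L h.OW).2⟩ : A) = 0 := rfl
    rw [this, map_zero]
  map_add' a b := by
    rw [← map_add]; rfl

theorem resBase_apply (c : GaussOrtho71.baseRing L h.OW) :
    h.resBase c = IsLocalRing.residue A ⟨(c : L), (h.algebraMap_mem_OW_iff c).mp c.2⟩ := rfl

theorem resBase_surjective : Function.Surjective h.resBase := by
  intro z
  obtain ⟨a, rfl⟩ := IsLocalRing.residue_surjective z
  exact ⟨⟨(a : L), (h.algebraMap_mem_OW_iff _).mpr a.2⟩, rfl⟩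

theorem resBase_eq_zero_of_nonunits (c : GaussOrtho71.baseRing L h.OW)
    (hc : (c : L) ∈ (GaussOrtho71.baseRing L h.OW).nonunits) : h.resBase c = 0 := by
  have hc' : (c : L) ∈ A.nonunits := by
    rw [GaussOrtho71.mem_nonunits_iff_inv] at hc ⊢
    rcases hc with h0 | hinv
    · left; exact h0
    · right
      intro hA
      exact hinv ((h.algebraMap_mem_OW_iff _).mpr hA)
  rw [resBase_apply, IsLocalRing.residue_eq_zero_iff, A.valuation_lt_one_iff]
  exact (ValuationSubring.mem_nonunits_iff A).mp hc'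

theorem redOW_compat (c : GaussOrtho71.baseRing L h.OW) :
    h.redOW ⟨algebraMap L F (c : L), c.2⟩ =
      algebraMap (IsLocalRing.ResidueField A) Fb (h.resBase c) :=
  h.redOW_algebraMap (c : L) ((h.algebraMap_mem_OW_iff c).mp c.2)

/-! ### The value group -/

/-- every nonzero element of `F` is a constant times a unit of `OW` -/
theorem exists_scale (y : F) (hy : y ≠ 0) :
    ∃ c : L, c ≠ 0 ∧ ∃ u : F, u ∈ h.OW ∧ u ∉ h.OW.nonunits ∧ y = algebraMap L F c * u := by
  have hy' : (y : LaurentSeries L) ≠ 0 := fun h0 => hy (Subtype.ext h0)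
  obtain ⟨c, hc, u, hu, huF, hρ, hyu⟩ := h.scale y y.2 hy'
  refine ⟨c, hc, ⟨u, huF⟩, hu, ?_, ?_⟩
  · rw [← h.redOW_ne_zero_iff ⟨⟨u, huF⟩, hu⟩]
    intro h0
    apply hρ
    have := congrArg (fun z : Fb => (z : LaurentSeries (IsLocalRing.ResidueField A))) h0
    simpa [redOW_coe'] using this
  · apply Subtype.ext
    push_cast
    rw [algebraMap_eq_C]
    exact hyu

/-- the value group of the Gauss valuation is the value group of `A` -/
theorem exists_valuation_eq (y : F) (hy : y ≠ 0) :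
    ∃ c : L, c ≠ 0 ∧ h.OW.valuation (algebraMap L F c) = h.OW.valuation y := by
  obtain ⟨c, hc, u, hu, hu', rfl⟩ := h.exists_scale y hy
  refine ⟨c, hc, ?_⟩
  rw [map_mul, GaussOrtho71.valuation_eq_one_of _ hu hu', mul_one]

/-- one-units: `ρ y = 1` iff `w (y - 1) < 1` -/
theorem redOW_eq_one_iff (y : h.OW) :
    h.redOW y = 1 ↔ h.OW.valuation ((y : F) - 1) < 1 := by
  have : h.redOW (y - 1) = 0 ↔ h.OW.valuation (((y - 1 : h.OW) : F)) < 1 :=
    h.redOW_eq_zero_iff_valuation_lt (y - 1)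
  rw [map_sub, map_one, sub_eq_zero] at this
  rw [this]
  rfl

end IsGaussPair

end Fermat.Agent.S18.Bridge28
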