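/-
S18 [BRIDGE] (helper28), file 5: THE CONCRETE GAUSS VALUATION OF `F_M = modularFunctionFieldBar M`.

For `A : ValuationSubring ℚ̄` with residue field `k` and `(M : k) ≠ 0` we instantiate helper15's
abstract structure theorem (`BridgeKernel15.Frame`) with
* `j = jqModC ℚ̄`, `F = modularFunctionFieldBar M`,
* `x i` = the `ψ(M)` integral monomials of `Bridge28.Frame` (S28 `keyLower_algClosed` over `k`),
* spanning from KEY0 over `ℚ̄` (`[F_M : ℚ̄(j)] ≤ ψ(M)`),
and derive `isGaussPair : IsGaussPair A (modularFunctionFieldBar M) (modularFunctionFieldFullC k M)`,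
hence (via `Bridge28.GaussVal`) the valuation subring `OW`, the reduction `redOW`, etc.
-/
import Mathlib
import Fermat.Agent.S28.KeyUpper
import Fermat.Agent.S28.PrimeIrredMain
import Fermat.Agent.S28.GaussRingRat
import Fermat.Agent.S18.BridgeKernel15
import Fermat.Agent.S18.Bridge28.Frame
import Fermat.Agent.S18.Bridge28.GaussVal

set_option autoImplicit false

open ModularCurve IntermediateField

noncomputable section

namespace Fermat.Agent.S18.Bridge28

open Fermat.Agent.S28 Fermat.Agent.S28.KeyGlue Fermat.Agent.S28.KEY0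

/-! ### KEY0 over any field embedded in `ℂ` -/

/-- **KEY0** over a field `K : Type` with an embedding into `ℂ`:
`[K(j(q^d) : d ∣ N) : K(j)] ≤ ψ(N)`. -/
theorem relrank_fullC_le_of_embedding (K : Type) [Field K] (f : K →+* ℂ) (N : ℕ) [NeZero N] :
    (K⟮jqModC K⟯).relrank (modularFunctionFieldFullC K N) ≤ ((dedekindPsi N : ℕ) : Cardinal) := by
  have hD := modEqStatement
  have hD' : ∀ r : ℕ, r.Prime → r ∣ N → RootsData ℂ r := fun r hr _ => by
    haveI : NeZero r := ⟨hr.ne_zero⟩
    exact rootsDataOfModEqData r (hD r hr).some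
  refine relrank_modularFunctionFieldFullC_le (K := K) f N hD' ?_
  intro p hp _
  have : NeZero p := ⟨hp.ne_zero⟩
  have hpK : (p : K) ≠ 0 := by
    intro h0
    have h1 : f (p : K) = (p : ℂ) := map_natCast f p
    rw [h0, map_zero] at h1
    exact (Nat.cast_ne_zero.mpr hp.ne_zero) h1.symm
  obtain ⟨-, -, -, -, h1, h2⟩ := P1.p1Statement p hp.two_le (hD p hp).some K hpK
  have e : fieldTTp K p = K⟮jqModC K⟯ ⊔ K⟮tq K p⟯ := by
    unfold fieldTTp
    rw [tq_eq, ← adjoin_union]
    rfl
  rw [← e]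
  have h1' : (K⟮jqModC K⟯).relrank (fieldTTp K p) = ((p + 1 : ℕ) : Cardinal) := h1
  have h2' : (K⟮tq K p⟯).relrank (fieldTTp K p) = ((p + 1 : ℕ) : Cardinal) := by
    rw [tq_eq]
    exact h2
  rw [h1', h2']

/-- an embedding `ℚ̄ → ℂ` -/
def embQbarC : AlgebraicClosure ℚ →+* ℂ := by
  haveI : Algebra.IsAlgebraic ℚ (AlgebraicClosure ℚ) := AlgebraicClosure.isAlgebraic ℚ
  exact (IsAlgClosed.lift : AlgebraicClosure ℚ →ₐ[ℚ] ℂ).toRingHom

/-- **KEY0 over `ℚ̄`**: `[F_M : ℚ̄(j)] ≤ ψ(M)`. -/
theorem relrank_bar_le (M : ℕ) [NeZero M] :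
    ((AlgebraicClosure ℚ)⟮jqModC (AlgebraicClosure ℚ)⟯).relrank (modularFunctionFieldBar M) ≤
      ((dedekindPsi M : ℕ) : Cardinal) := by
  rw [modularFunctionFieldBar_eq_fullC]
  exact relrank_fullC_le_of_embedding _ embQbarC M

/-! ### The concrete frame -/

section Concrete

variable (A : ValuationSubring (AlgebraicClosure ℚ)) (M : ℕ) [NeZero M]
  (hMk : (M : IsLocalRing.ResidueField A) ≠ 0)

/-- the integral monomials of the frame -/
def xZ : Fin (dedekindPsi M) → LaurentSeries ℤ := (exists_frame A M hMk).choose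

theorem xZ_mem (i : Fin (dedekindPsi M)) : xZ A M hMk i ∈ monomialsZ M :=
  (exists_frame A M hMk).choose_spec.1 i

theorem xZ_linearIndependent :
    LinearIndependent ↥((IsLocalRing.ResidueField A)⟮jqModC (IsLocalRing.ResidueField A)⟯)
      (fun i => coeffMap (Int.castRingHom (IsLocalRing.ResidueField A)) (xZ A M hMk i)) :=
  (exists_frame A M hMk).choose_spec.2

theorem coeffMap_int_jqModC (R : Type*) [CommRing R] :
    coeffMap (Int.castRingHom R) (jqModC ℤ) = jqModC R := coeffMap_jqModC _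

theorem jqModC_mem_O : jqModC (AlgebraicClosure ℚ) ∈ O A := by
  rw [← coeffMap_int_jqModC]
  exact inclZ_mem_O A _

theorem rho_jqModC :
    rho A ⟨jqModC (AlgebraicClosure ℚ), jqModC_mem_O A⟩ = jqModC (IsLocalRing.ResidueField A) := by
  have key : ∀ (s : LaurentSeries (AlgebraicClosure ℚ)) (hs : s ∈ O A),
      s = coeffMap (Int.castRingHom (AlgebraicClosure ℚ)) (jqModC ℤ) →
      rho A ⟨s, hs⟩ = coeffMap (Int.castRingHom (IsLocalRing.ResidueField A)) (jqModC ℤ) := by
    rintro s hs rfl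
    exact rho_inclZ A _
  rw [key _ _ (coeffMap_int_jqModC _).symm, coeffMap_int_jqModC]

/-- helper15's `PreFrame` for `F_M`. -/
def preFrame : BridgeKernel15.PreFrame A (Fin (dedekindPsi M)) where
  j := jqModC (AlgebraicClosure ℚ)
  hj := jqModC_mem_O A
  ht := by
    rw [rho_jqModC]
    exact GaussRingRat.transcendental_jqModC _
  F := modularFunctionFieldBar M
  hjF := jqModC_mem_bar M
  x i := coeffMap (Int.castRingHom (AlgebraicClosure ℚ)) (xZ A M hMk i)
  hxO i := inclZ_mem_O A _
  hxF i := coeffMap_mem_bar_of_mem_monomialsZ (xZ_mem A M hMk i)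
  hli := by
    intro g hg hsum
    rw [rho_jqModC] at hg
    simp only [rho_inclZ] at hsum
    exact BridgeKernel15.unbundle_linearIndependent _ _ (xZ_linearIndependent A M hMk) g hg hsum

/-- helper15's `Frame` for `F_M` (spanning from KEY0 over `ℚ̄`). -/
def frame : BridgeKernel15.Frame A (Fin (dedekindPsi M)) :=
  BridgeKernel15.Frame.ofRelrankLe A (preFrame A M hMk) (by
    rw [Fintype.card_fin]
    exact relrank_bar_le M)

theorem frame_F : (frame A M hMk).F = modularFunctionFieldBar M := rfl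

theorem frame_j : (frame A M hMk).j = jqModC (AlgebraicClosure ℚ) := rfl

theorem frame_x (i : Fin (dedekindPsi M)) :
    (frame A M hMk).x i = coeffMap (Int.castRingHom (AlgebraicClosure ℚ)) (xZ A M hMk i) := rfl

end Concrete

end Fermat.Agent.S18.Bridge28
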