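/-
S18 [BRIDGE] (helper28), file 6: EXPORTS in the exact shape of the [BRIDGE] fields of
`Level33.LevelData A M` (and of `Spine33.IsOneUnit`).

For `A : ValuationSubring ℚ̄`, `k` its residue field, `(M : k) ≠ 0`
(in particular `A | ℓ`, `ℓ ∤ M`: `natCast_residueField_ne_zero`):
* `OW A M hMk : ValuationSubring (FK M)`           — the Gauss valuation ring `𝒪_A ∩ F_M`;
* `rhoW A M hMk : OW →+* LaurentSeries k`          — its residue map (coefficientwise reduction);
* `ker_rhoW`, `rhoW_incl`, `const_mem`, `rhoW_const`, `hval` — the fields `ker_ρ`, `ρ_incl`,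
  `const_mem`, `ρ_const`, `hval` of `LevelData`;
* `rhoW_mem_fullC`, `rhoW_surjective` — `ρ(OW) = F̄_M = modularFunctionFieldFullC k M`;
* `gaussPair` — the `IsGaussPair` term, giving access to everything in `Bridge28.GaussVal`.
-/
import Mathlib
import Fermat.Agent.S18.Spine33
import Fermat.Agent.S18.Bridge28.Concrete

set_option autoImplicit false

open ModularCurve IntermediateField

noncomputable section

namespace Fermat.Agent.S18.Bridge28

open Fermat.Agent.S28 Fermat.Agent.S28.KeyGlue Fermat.Agent.S18.Spine33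

section Exports

variable (A : ValuationSubring Kb) (M : ℕ) [NeZero M]
  (hMk : (M : IsLocalRing.ResidueField A) ≠ 0)

omit [NeZero M] in
/-- `ρ` of a series which is (propositionally) the image of an integral series -/
theorem rho_eq_of_eq_inclZ (s : LaurentSeries Kb) (hs : s ∈ O A) (z : LaurentSeries ℤ)
    (h : s = coeffMap (Int.castRingHom Kb) z) :
    rho A ⟨s, hs⟩ = coeffMap (Int.castRingHom (IsLocalRing.ResidueField A)) z := by
  subst h
  exact rho_inclZ A z

/-- membership in `(frame A M hMk).OF` -/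
theorem range_rhoF_concrete (z : LaurentSeries (IsLocalRing.ResidueField A)) :
    z ∈ modularFunctionFieldFullC (IsLocalRing.ResidueField A) M ↔
      ∃ y : (frame A M hMk).OF, (frame A M hMk).rhoF y = z := by
  refine (frame A M hMk).range_rhoF (modularFunctionFieldFullC (IsLocalRing.ResidueField A) M)
    (divisorExpansionsC (IsLocalRing.ResidueField A) M) ?_ rfl ?_ ?_ z
  · rintro g ⟨d, hd, hdM, rfl⟩
    have hZ : qExpand ℤ d (jqModC ℤ) ∈ monomialsZ M :=
      Submonoid.subset_closure ⟨d, hd, hdM, rfl⟩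
    have hF : coeffMap (Int.castRingHom Kb) (qExpand ℤ d (jqModC ℤ)) ∈ (frame A M hMk).F :=
      coeffMap_mem_bar_of_mem_monomialsZ hZ
    refine ⟨⟨⟨_, hF⟩, inclZ_mem_O A _⟩, ?_⟩
    rw [BridgeKernel15.Frame.rhoF_apply, rho_eq_of_eq_inclZ A _ _ (qExpand ℤ d (jqModC ℤ)) rfl,
      coeffMap_qExpand, coeffMap_jqModC]
  · show rho A ⟨jqModC Kb, jqModC_mem_O A⟩ ∈ _
    rw [rho_jqModC]
    exact jqModC_mem_full _ M
  · intro i
    show rho A ⟨coeffMap (Int.castRingHom Kb) (xZ A M hMk i), inclZ_mem_O A _⟩ ∈ _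
    rw [rho_inclZ]
    exact coeffMap_mem_fullC_of_mem_monomialsZ _ (xZ_mem A M hMk i)

include hMk in
/-- **The structure theorem for `F_M`**, packaged. -/
theorem gaussPair : IsGaussPair A (modularFunctionFieldBar M)
    (modularFunctionFieldFullC (IsLocalRing.ResidueField A) M) where
  scale := by
    intro y hy hy0
    obtain ⟨c, u, hc, hyu, hu, -, huF⟩ := (frame A M hMk).exists_C_mul_unit hy hy0
    exact ⟨c, hc, u.1, u.2, huF, hu, hyu⟩
  rho_mem := by
    intro u hu huF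
    exact (range_rhoF_concrete A M hMk _).mpr ⟨⟨⟨u, huF⟩, hu⟩, rfl⟩
  surj := by
    intro z hz
    obtain ⟨y, hy⟩ := (range_rhoF_concrete A M hMk z).mp hz
    exact ⟨((y : (frame A M hMk).F) : LaurentSeries Kb), y.2, (y : (frame A M hMk).F).2, hy⟩

/-- **The Gauss valuation ring of `F_M`.** -/
def OW : ValuationSubring (FK M) := (gaussPair A M hMk).OW

theorem mem_OW_iff (y : FK M) : y ∈ OW A M hMk ↔ (y : LaurentSeries Kb) ∈ O A := Iff.rfl

/-- **The residue map of the Gauss valuation ring**, with values in `k((q))`. -/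
def rhoW : OW A M hMk →+* LaurentSeries (IsLocalRing.ResidueField A) :=
  (rho A).comp (gaussPair A M hMk).toO

theorem rhoW_apply (y : OW A M hMk) :
    rhoW A M hMk y = rho A ⟨((y : FK M) : LaurentSeries Kb), y.2⟩ := rfl

theorem rhoW_eq_redOW (y : OW A M hMk) :
    rhoW A M hMk y = (((gaussPair A M hMk).redOW y :
      ↥(modularFunctionFieldFullC (IsLocalRing.ResidueField A) M)) :
      LaurentSeries (IsLocalRing.ResidueField A)) := rfl

/-- `LevelData.ker_ρ` -/
theorem ker_rhoW (x : OW A M hMk) :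
    rhoW A M hMk x = 0 ↔ x ∈ IsLocalRing.maximalIdeal (OW A M hMk) := by
  rw [ValuationSubring.valuation_lt_one_iff]
  have h1 := (gaussPair A M hMk).redOW_eq_zero_iff_valuation_lt x
  have h2 : rhoW A M hMk x = 0 ↔ (gaussPair A M hMk).redOW x = 0 := by
    rw [rhoW_eq_redOW]
    constructor
    · intro h; exact Subtype.ext h
    · intro h; rw [h]; rfl
  exact h2.trans h1

/-- `LevelData.ρ_incl` -/
theorem rhoW_incl (U : LaurentSeries A) (h : Spine33.incl A U ∈ modularFunctionFieldBar M) :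
    ∃ hO : (⟨Spine33.incl A U, h⟩ : FK M) ∈ OW A M hMk,
      rhoW A M hMk ⟨_, hO⟩ = Spine33.red A U :=
  ⟨incl_mem_O A U, rho_incl A U⟩

/-- `LevelData.const_mem` -/
theorem const_mem (c : Kb) : algebraMap Kb (FK M) c ∈ OW A M hMk ↔ c ∈ A :=
  (gaussPair A M hMk).algebraMap_mem_OW_iff c

/-- `LevelData.ρ_const` -/
theorem rhoW_const (c : A) (h : algebraMap Kb (FK M) (c : Kb) ∈ OW A M hMk) :
    rhoW A M hMk ⟨_, h⟩ = HahnSeries.C (IsLocalRing.residue A c) := by
  rw [rhoW_apply]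
  have h1 : (⟨((algebraMap Kb (FK M) (c : Kb) : FK M) : LaurentSeries Kb), h⟩ : O A) =
      ⟨HahnSeries.C (c : Kb), C_mem_O A c.2⟩ :=
    Subtype.ext (coe_algebraMap_F (F := modularFunctionFieldBar M) (c : Kb))
  exact (congrArg (rho A) h1).trans (rho_C A c.2)

/-- `LevelData.hval` -/
theorem hval (y : FK M) (hy : y ≠ 0) :
    ∃ c : Kb, (OW A M hMk).valuation (algebraMap Kb (FK M) c) = (OW A M hMk).valuation y := by
  obtain ⟨c, -, hc⟩ := (gaussPair A M hMk).exists_valuation_eq y hy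
  exact ⟨c, hc⟩

/-- the image of `ρ` lies in `F̄_M` -/
theorem rhoW_mem_fullC (x : OW A M hMk) :
    rhoW A M hMk x ∈ modularFunctionFieldFullC (IsLocalRing.ResidueField A) M :=
  (gaussPair A M hMk).rho_mem _ _ (x : FK M).2

/-- `ρ` is onto `F̄_M` -/
theorem rhoW_surjective (z : LaurentSeries (IsLocalRing.ResidueField A))
    (hz : z ∈ modularFunctionFieldFullC (IsLocalRing.ResidueField A) M) :
    ∃ x : OW A M hMk, rhoW A M hMk x = z := by
  obtain ⟨u, hu, huF, rfl⟩ := (gaussPair A M hMk).surj z hz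
  exact ⟨⟨⟨u, huF⟩, hu⟩, rfl⟩

/-- every nonzero element of `F_M` is a constant times a unit of `OW` -/
theorem exists_const_mul_unit (y : FK M) (hy : y ≠ 0) :
    ∃ c : Kb, c ≠ 0 ∧ ∃ u : FK M, u ∈ OW A M hMk ∧ u ∉ (OW A M hMk).nonunits ∧
      y = algebraMap Kb (FK M) c * u :=
  (gaussPair A M hMk).exists_scale y hy

/-- one-units in the sense of `Spine33.IsOneUnit` are one-units of the Gauss valuation -/
theorem valuation_sub_one_lt_of_isOneUnit {f : FK M}
    (hf : IsOneUnit A M (f : LaurentSeries Kb)) : (OW A M hMk).valuation (f - 1) < 1 := by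
  obtain ⟨U, V, hU, hV, -, hne, hUV, hfUV⟩ := hf
  have hVO : Spine33.incl A V ∈ O A := incl_mem_O A V
  have hUO : Spine33.incl A U ∈ O A := incl_mem_O A U
  have hρV : rho A ⟨Spine33.incl A V, hVO⟩ = Spine33.red A V := rho_incl A V
  have hρU : rho A ⟨Spine33.incl A U, hUO⟩ = Spine33.red A U := rho_incl A U
  have hρVne : rho A ⟨Spine33.incl A V, hVO⟩ ≠ 0 := by rw [hρV, ← hUV]; exact hne
  have hVinv : (Spine33.incl A V)⁻¹ ∈ O A := inv_mem_O_of_rho_ne_zero A ⟨_, hVO⟩ hρVne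
  have hV0 : Spine33.incl A V ≠ 0 := by
    intro h0
    apply hρVne
    have : (⟨Spine33.incl A V, hVO⟩ : O A) = 0 := Subtype.ext h0
    rw [this, map_zero]
  have hfeq : (f : LaurentSeries Kb) = Spine33.incl A U * (Spine33.incl A V)⁻¹ := by
    rw [← hfUV, mul_assoc, mul_inv_cancel₀ hV0, mul_one]
  have hfO : (f : LaurentSeries Kb) ∈ O A := by
    rw [hfeq]; exact (O A).mul_mem hUO hVinv
  have hρf : rho A ⟨(f : LaurentSeries Kb), hfO⟩ = 1 := by
    have h1 : (⟨(f : LaurentSeries Kb), hfO⟩ : O A) * ⟨Spine33.incl A V, hVO⟩ =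
        ⟨Spine33.incl A U, hUO⟩ := Subtype.ext hfUV
    have h2 := congrArg (rho A) h1
    rw [map_mul, hρV, hρU, hUV] at h2
    have hne' : Spine33.red A V ≠ 0 := by rw [← hUV]; exact hne
    exact mul_right_cancel₀ hne' (by rw [h2, one_mul])
  have hfOW : f ∈ OW A M hMk := hfO
  have := (gaussPair A M hMk).redOW_eq_one_iff ⟨f, hfOW⟩
  refine this.mp (Subtype.ext ?_)
  rw [IsGaussPair.redOW_coe']
  exact hρf

/-- The [BRIDGE] fields of `Level33.LevelData A M`, verbatim. -/
structure BridgeData (A : ValuationSubring Kb) (M : ℕ) where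
  O : ValuationSubring (FK M)
  ρ : O →+* LaurentSeries (kA A)
  ker_ρ : ∀ x : O, ρ x = 0 ↔ x ∈ IsLocalRing.maximalIdeal O
  ρ_incl : ∀ (U : LaurentSeries A) (h : Spine33.incl A U ∈ modularFunctionFieldBar M),
    ∃ hO : (⟨Spine33.incl A U, h⟩ : FK M) ∈ O, ρ ⟨_, hO⟩ = Spine33.red A U
  const_mem : ∀ c : Kb, algebraMap Kb (FK M) c ∈ O ↔ c ∈ A
  ρ_const : ∀ (c : A) (h : algebraMap Kb (FK M) (c : Kb) ∈ O),
    ρ ⟨_, h⟩ = HahnSeries.C (IsLocalRing.residue A c)
  hval : ∀ y : FK M, y ≠ 0 → ∃ c : Kb, O.valuation (algebraMap Kb (FK M) c) = O.valuation y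
  /-- the image of `ρ` is exactly `F̄_M` -/
  ρ_mem : ∀ x : O, ρ x ∈ modularFunctionFieldFullC (kA A) M
  ρ_surj : ∀ z ∈ modularFunctionFieldFullC (kA A) M, ∃ x : O, ρ x = z
  /-- `O = 𝒪_A ∩ F_M` -/
  mem_iff : ∀ y : FK M, y ∈ O ↔ (y : LaurentSeries Kb) ∈ Bridge28.O A

/-- **[BRIDGE] for `Level33.LevelData`**: all fields at once. -/
def bridgeData : BridgeData A M where
  O := OW A M hMk
  ρ := rhoW A M hMk
  ker_ρ := ker_rhoW A M hMk
  ρ_incl := rhoW_incl A M hMk
  const_mem := const_mem A M hMk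
  ρ_const := rhoW_const A M hMk
  hval := hval A M hMk
  ρ_mem := rhoW_mem_fullC A M hMk
  ρ_surj := rhoW_surjective A M hMk
  mem_iff := mem_OW_iff A M hMk

end Exports

/-! ### The case `A | ℓ`, `ℓ ∤ M` -/

section LiesOver

variable (A : ValuationSubring Kb) {ℓ : ℕ} [Fact ℓ.Prime] (hA : A.LiesOverPrime ℓ)
  (M : ℕ) [NeZero M] (hM : ¬ ℓ ∣ M)

/-- the Gauss valuation ring of `F_M` for `A | ℓ`, `ℓ ∤ M` -/
abbrev OWl : ValuationSubring (FK M) := OW A M (natCast_residueField_ne_zero A hA hM)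

/-- its residue map -/
abbrev rhoWl : OWl A hA M hM →+* LaurentSeries (IsLocalRing.ResidueField A) :=
  rhoW A M (natCast_residueField_ne_zero A hA hM)

/-- **[BRIDGE] for `Level33.LevelData`** at `A | ℓ`, `ℓ ∤ M`. -/
def bridgeDataOfLiesOver : BridgeData A M :=
  bridgeData A M (natCast_residueField_ne_zero A hA hM)

end LiesOver

end Fermat.Agent.S18.Bridge28
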