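/-
S18 [BRIDGE] (helper28), file 7: DEGREES.

`[F̄_M : k(j̄)] = ψ(M)` for every algebraically closed field `k : Type` with `(M : k) ≠ 0`
(lower bound = S28 `keyLower_algClosed`; upper bound = S28 KEY0 run over `k` itself with a
primitive root of unity of `k`), in all the shapes used by [GENUSEQ] / [DW] / [RH]:
`relrank` inside `k((q))`, `finrank (RatFunc k)` (SepInst72 instance block), `S24.degOver`.
Also `[F_M : ℚ̄(j)] = ψ(M)` in `relrank` form.
-/
import Mathlib
import Fermat.Agent.S18.SepInst72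
import Fermat.Agent.S18.Bridge28.Concrete

set_option autoImplicit false
set_option linter.style.haveILetI false

open ModularCurve IntermediateField

noncomputable section

namespace Fermat.Agent.S18.Bridge28

open Fermat.Agent.S28 Fermat.Agent.S28.KeyGlue Fermat.Agent.S28.KEY0 Polynomial

/-- The roots data of prime level `r` over ANY field `k : Type` containing a primitive `r`-th root
of unity (generalisation of `S28.KEY0.rootsDataOfModEqData` from `ℂ`). -/
def rootsDataOfZeta (k : Type) [Field k] (r : ℕ) [NeZero r] (D : ModEqData r) (ζ : kˣ)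
    (hζ : IsPrimitiveRoot (ζ : k) r) : RootsData k r where
  Φ := D.Phi
  monic := D.monic
  natDegree_eq := D.natDegree_eq
  ρ b := twist (ζ ^ b) (jqModC k)
  c b := (((ζ ^ b) ^ (-1 : ℤ) : kˣ) : k)
  roots := by
    have h := D.roots k ζ (hζ.isRoot_cyclotomic (Nat.pos_of_ne_zero (NeZero.ne r)))
    have : NeZero (r * r) := ⟨Nat.mul_ne_zero (NeZero.ne r) (NeZero.ne r)⟩
    rw [tq_eq, tq_eq]
    exact h
  ρ_zero := by rw [pow_zero, twist_one]
  leads b _ := leadsAt_twist_jqModC _
  c_ne_zero b _ := Units.ne_zero _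
  c_ne_one b hb hb0 := by
    intro h
    have h1 : ((ζ ^ b) ^ (-1 : ℤ) : kˣ) = 1 := Units.ext h
    rw [zpow_neg_one, inv_eq_one] at h1
    have h2 : ((ζ : kˣ) : k) ^ b = 1 := by
      have := congrArg (fun u : kˣ => (u : k)) h1
      simpa using this
    exact hζ.pow_ne_one_of_pos_of_lt hb0 hb h2

/-- **KEY0 over an algebraically closed field `k` with `(M : k) ≠ 0`**:
`[F̄_M : k(j)] ≤ ψ(M)`. -/
theorem relrank_fullC_le_algClosed (k : Type) [Field k] [IsAlgClosed k] (M : ℕ) [NeZero M]
    (hM : (M : k) ≠ 0) :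
    (k⟮jqModC k⟯).relrank (modularFunctionFieldFullC k M) ≤ ((dedekindPsi M : ℕ) : Cardinal) := by
  have hD := modEqStatement
  have hne : ∀ r : ℕ, r ∣ M → (r : k) ≠ 0 := by
    intro r hr h0
    obtain ⟨c, rfl⟩ := hr
    apply hM
    rw [Nat.cast_mul, h0, zero_mul]
  have hD' : ∀ r : ℕ, r.Prime → r ∣ M → RootsData k r := fun r hr hrM => by
    haveI : NeZero r := ⟨hr.ne_zero⟩
    have hex := KeyLower.exists_zeta k r hr.pos (hne r hrM)
    exact rootsDataOfZeta k r (hD r hr).some hex.choose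
      ((IsPrimitiveRoot.coe_units_iff).mpr hex.choose_spec.1)
  refine relrank_modularFunctionFieldFullC_le (K := k) (RingHom.id k) M hD' ?_
  intro p hp hpM
  have : NeZero p := ⟨hp.ne_zero⟩
  obtain ⟨-, -, -, -, h1, h2⟩ := P1.p1Statement p hp.two_le (hD p hp).some k (hne p hpM)
  have e : fieldTTp k p = k⟮jqModC k⟯ ⊔ k⟮tq k p⟯ := by
    unfold fieldTTp
    rw [tq_eq, ← adjoin_union]
    rfl
  rw [← e]
  have h1' : (k⟮jqModC k⟯).relrank (fieldTTp k p) = ((p + 1 : ℕ) : Cardinal) := h1
  have h2' : (k⟮tq k p⟯).relrank (fieldTTp k p) = ((p + 1 : ℕ) : Cardinal) := by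
    rw [tq_eq]
    exact h2
  rw [h1', h2']

/-- **Igusa over `k`**: `[F̄_M : k(j)] = ψ(M)`, `relrank` form. -/
theorem relrank_fullC_eq_algClosed (k : Type) [Field k] [IsAlgClosed k] (M : ℕ) [NeZero M]
    (hM : (M : k) ≠ 0) :
    (k⟮jqModC k⟯).relrank (modularFunctionFieldFullC k M) = ((dedekindPsi M : ℕ) : Cardinal) :=
  le_antisymm (relrank_fullC_le_algClosed k M hM)
    (KeyLower.keyLower_algClosed modEqStatement k M hM)

/-- `relfinrank` form. -/
theorem relfinrank_fullC_eq_algClosed (k : Type) [Field k] [IsAlgClosed k] (M : ℕ) [NeZero M]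
    (hM : (M : k) ≠ 0) :
    (k⟮jqModC k⟯).relfinrank (modularFunctionFieldFullC k M) = dedekindPsi M := by
  rw [IntermediateField.relfinrank_eq_toNat_relrank, relrank_fullC_eq_algClosed k M hM,
    Cardinal.toNat_natCast]

set_option synthInstance.maxHeartbeats 400000 in
/-- **`[F̄_M : k(x̄)] = ψ(M)`** computed inside `F̄_M` (`x̄ = SepInst72.xbar k M = ⟨jqModC k, _⟩`);
this is `S24.degOver k x̄`. -/
theorem finrank_adjoin_xbar_eq (k : Type) [Field k] [IsAlgClosed k] (M : ℕ) [NeZero M]
    (hM : (M : k) ≠ 0) :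
    Module.finrank ↥(k⟮SepInst72.xbar k M⟯) ↥(modularFunctionFieldFullC k M) = dedekindPsi M := by
  rw [SepInst72.finrank_adjoin_xbar_eq_relfinrank, relfinrank_fullC_eq_algClosed k M hM]

set_option synthInstance.maxHeartbeats 400000 in
/-- **`finrank (RatFunc k) F̄_M = ψ(M)`** for the RatFunc-algebra structure
`S20.T1Setup.algRat (SepInst72.transcendental_xbar k M)` (`X ↦ j̄`). -/
theorem finrank_algRat_eq (k : Type) [Field k] [IsAlgClosed k] (M : ℕ) [NeZero M]
    (hM : (M : k) ≠ 0) :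
    letI := Fermat.Agent.S20.T1Setup.algRat (SepInst72.transcendental_xbar k M)
    Module.finrank (RatFunc k) ↥(modularFunctionFieldFullC k M) = dedekindPsi M := by
  letI := Fermat.Agent.S20.T1Setup.algRat (SepInst72.transcendental_xbar k M)
  rw [SepInst72.finrank_algRat_eq_relfinrank, relfinrank_fullC_eq_algClosed k M hM]

/-! ### the generic fibre -/

/-- **`[F_M : ℚ̄(j)] = ψ(M)`**, `relrank` form inside `ℚ̄((q))`. -/
theorem relrank_bar_eq (M : ℕ) [NeZero M] :
    ((AlgebraicClosure ℚ)⟮jqModC (AlgebraicClosure ℚ)⟯).relrank (modularFunctionFieldBar M) =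
      ((dedekindPsi M : ℕ) : Cardinal) := by
  refine le_antisymm (relrank_bar_le M) ?_
  rw [modularFunctionFieldBar_eq_fullC]
  exact KeyLower.keyLower_algClosed modEqStatement (AlgebraicClosure ℚ) M
    (Nat.cast_ne_zero.mpr (NeZero.ne M))

/-! ### the residue field of `A | ℓ` -/

section Residue

variable (A : ValuationSubring (AlgebraicClosure ℚ)) {ℓ : ℕ} [Fact ℓ.Prime]
  (hA : A.LiesOverPrime ℓ) (M : ℕ) [NeZero M] (hM : ¬ ℓ ∣ M)

include hA hM in
/-- `[F̄_M : k(j̄)] = ψ(M)` over the residue field of `A | ℓ`, `ℓ ∤ M`. -/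
theorem relrank_fullC_residueField :
    ((IsLocalRing.ResidueField A)⟮jqModC (IsLocalRing.ResidueField A)⟯).relrank
      (modularFunctionFieldFullC (IsLocalRing.ResidueField A) M) =
      ((dedekindPsi M : ℕ) : Cardinal) := by
  haveI : IsAlgClosed (IsLocalRing.ResidueField A) := ValRing25.residueField_isAlgClosed A
  exact relrank_fullC_eq_algClosed _ M (natCast_residueField_ne_zero A hA hM)

end Residue

end Fermat.Agent.S18.Bridge28
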